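import Mathlib

/-!
# Parallelogram law ⇒ quadratic form (pure algebra)

A function `h : A → R` on an abelian group with values in a commutative ring in which `2` is not a
zero divisor, satisfying the parallelogram law `h (P + Q) + h (P - Q) = 2 * h P + 2 * h Q`, is a
quadratic form: the pairing `B P Q = h (P + Q) - h P - h Q` is biadditive and symmetric,
`h (n • P) = n ^ 2 * h P`, and
`2 * h (a • P + b • Q) = 2 * a ^ 2 * h P + 2 * a * b * B P Q + 2 * b ^ 2 * h Q`.
-/

set_option autoImplicit false

namespace Fermat.Agent.H5

section
variable {A : Type*} [AddCommGroup A] {R : Type*} [CommRing R]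

/-- The pairing attached to a "height" `h`. -/
def parPairing (h : A → R) (P Q : A) : R := h (P + Q) - h P - h Q

variable {h : A → R}

theorem parPairing_comm (h : A → R) (P Q : A) : parPairing h P Q = parPairing h Q P := by
  unfold parPairing
  rw [add_comm P Q]
  ring

/-- `h (P + Q) = h P + B(P, Q) + h Q`. -/
theorem par_add (h : A → R) (P Q : A) : h (P + Q) = h P + parPairing h P Q + h Q := by
  unfold parPairing
  ring

variable (h2 : ∀ r : R, 2 * r = 0 → r = 0)
  (hpar : ∀ P Q : A, h (P + Q) + h (P - Q) = 2 * h P + 2 * h Q)

include h2 hpar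

theorem par_zero : h 0 = 0 := by
  have := hpar 0 0
  simp only [add_zero, sub_zero] at this
  apply h2
  linear_combination -this

theorem par_neg (Q : A) : h (-Q) = h Q := by
  have h0 := par_zero h2 hpar
  have := hpar 0 Q
  simp only [zero_add, zero_sub, h0] at this
  linear_combination this

/-- The key three-term identity. -/
theorem par_add_add (P Q T : A) :
    h (P + Q + T) = h (P + Q) + h (P + T) + h (Q + T) - h P - h Q - h T := by
  have e2 := hpar (P + T) Q
  have e3 := hpar (Q + T) P
  have e4 := hpar T (P - Q)
  have e5 := hpar P Q
  have a2 : P + T + Q = P + Q + T := by abel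
  have a3 : Q + T + P = P + Q + T := by abel
  have a4 : T + (P - Q) = P + T - Q := by abel
  have a5 : T - (P - Q) = Q + T - P := by abel
  rw [a2] at e2
  rw [a3] at e3
  rw [a4, a5] at e4
  apply sub_eq_zero.mp
  apply h2
  linear_combination e2 + e3 - e4 - 2 * e5

theorem parPairing_add_left (P Q T : A) :
    parPairing h (P + Q) T = parPairing h P T + parPairing h Q T := by
  unfold parPairing
  rw [par_add_add h2 hpar P Q T]
  ring

theorem parPairing_add_right (T P Q : A) :
    parPairing h T (P + Q) = parPairing h T P + parPairing h T Q := by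
  rw [parPairing_comm, parPairing_add_left h2 hpar, parPairing_comm h P T, parPairing_comm h Q T]

theorem parPairing_zero_left (T : A) : parPairing h 0 T = 0 := by
  unfold parPairing
  rw [zero_add, par_zero h2 hpar]
  ring

theorem parPairing_zero_right (T : A) : parPairing h T 0 = 0 := by
  rw [parPairing_comm, parPairing_zero_left h2 hpar]

theorem parPairing_self (P : A) : parPairing h P P = 2 * h P := by
  have := hpar P P
  rw [sub_self, par_zero h2 hpar] at this
  unfold parPairing
  linear_combination this

theorem parPairing_neg_left (P T : A) : parPairing h (-P) T = -parPairing h P T := by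
  have := parPairing_add_left h2 hpar P (-P) T
  rw [add_neg_cancel, parPairing_zero_left h2 hpar] at this
  linear_combination -this

theorem parPairing_neg_right (T P : A) : parPairing h T (-P) = -parPairing h T P := by
  rw [parPairing_comm, parPairing_neg_left h2 hpar, parPairing_comm]

theorem parPairing_nsmul_left (n : ℕ) (P T : A) :
    parPairing h (n • P) T = n * parPairing h P T := by
  induction n with
  | zero => simp [parPairing_zero_left h2 hpar]
  | succ n ih =>
    rw [succ_nsmul, parPairing_add_left h2 hpar, ih]
    push_cast
    ring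

theorem parPairing_zsmul_left (n : ℤ) (P T : A) :
    parPairing h (n • P) T = n * parPairing h P T := by
  obtain ⟨m, rfl | rfl⟩ := n.eq_nat_or_neg
  · rw [natCast_zsmul, parPairing_nsmul_left h2 hpar]
    push_cast
    ring
  · rw [neg_smul, natCast_zsmul, parPairing_neg_left h2 hpar, parPairing_nsmul_left h2 hpar]
    push_cast
    ring

theorem parPairing_zsmul_right (n : ℤ) (T P : A) :
    parPairing h T (n • P) = n * parPairing h T P := by
  rw [parPairing_comm, parPairing_zsmul_left h2 hpar, parPairing_comm]

/-- `h (n • P) = n ^ 2 * h P`. -/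
theorem par_zsmul (n : ℤ) (P : A) : h (n • P) = (n : R) ^ 2 * h P := by
  apply sub_eq_zero.mp
  apply h2
  have e1 := parPairing_self h2 hpar (n • P)
  have e2 := parPairing_zsmul_left h2 hpar n P (n • P)
  have e3 := parPairing_zsmul_right h2 hpar n P P
  have e4 := parPairing_self h2 hpar P
  rw [e2, e3, e4] at e1
  linear_combination -e1

theorem par_nsmul (n : ℕ) (P : A) : h (n • P) = (n : R) ^ 2 * h P := by
  have := par_zsmul h2 hpar (n : ℤ) P
  rw [natCast_zsmul] at this
  rw [this]
  push_cast
  ring

/-- The value of `h` on an integral combination of two elements. -/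
theorem par_zsmul_add_zsmul (a b : ℤ) (P Q : A) :
    h (a • P + b • Q) =
      (a : R) ^ 2 * h P + (a : R) * b * parPairing h P Q + (b : R) ^ 2 * h Q := by
  rw [par_add h, parPairing_zsmul_left h2 hpar, parPairing_zsmul_right h2 hpar,
    par_zsmul h2 hpar, par_zsmul h2 hpar]
  ring

/-- The value of `h` on an integral combination of three elements. -/
theorem par_zsmul_add_zsmul_add_zsmul (a b c : ℤ) (P Q T : A) :
    h (a • P + b • Q + c • T) =
      (a : R) ^ 2 * h P + (b : R) ^ 2 * h Q + (c : R) ^ 2 * h T +
        (a : R) * b * parPairing h P Q + (a : R) * c * parPairing h P T +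
        (b : R) * c * parPairing h Q T := by
  rw [par_add h, parPairing_add_left h2 hpar, parPairing_zsmul_left h2 hpar,
    parPairing_zsmul_left h2 hpar, parPairing_zsmul_right h2 hpar,
    parPairing_zsmul_right h2 hpar, par_zsmul_add_zsmul h2 hpar, par_zsmul h2 hpar]
  ring

end

end Fermat.Agent.H5
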